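/-
helper53 (P-FF / FF-F, block F7): THE HOPF CHAIN.

`M` a finite Galois module with a Hopf model (S19: `M = J₀(N)[p ^ n]`), `Ψ : (A → M) ↠ X` an
equivariant surjection from a finite power, `φ : V → (Fin r → X)` additive and equivariant with
`ker φ ⊆ I • V`.  Then `V / I V` (with `ρ.levelAction I`) has a Hopf model:

  power (FF-E-PROD) → quotient (FF-E-QUOT) → power → subgroup (FF-E-SUB) → quotient.

* `hopfModel_of_chain` : the chain, from the three closure statements.
* `isFlatAt_iff_hasHopfModel` : `GaloisRepAdic.IsFlatAt` is `HasHopfModel` of all `V / I V`.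
* `isFlatAt_of_chain` : the resulting criterion for `IsFlatAt`.
-/
import Fermat.Agent.H14.FFF.Interfaces

set_option autoImplicit false

noncomputable section

namespace Fermat.Agent.H53

open Fermat.Agent.H10.FF Fermat.Agent.H14.FFF

section levelAction

variable {T : Type} [CommRing T] [IsLocalRing T] (ρ : GaloisRepAdic T) (I : Ideal T)

theorem levelAction_mk (σ : GQ) (v : ρ.V) :
    ρ.levelAction I σ (Submodule.Quotient.mk v) = Submodule.Quotient.mk (ρ.ρ σ v) := rfl

theorem levelAction_one (z : ρ.V ⧸ (I • (⊤ : Submodule T ρ.V))) :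
    ρ.levelAction I 1 z = z := by
  induction z using Submodule.Quotient.induction_on with
  | _ v => rw [levelAction_mk, map_one]; rfl

theorem levelAction_mul (σ τ : GQ) (z : ρ.V ⧸ (I • (⊤ : Submodule T ρ.V))) :
    ρ.levelAction I (σ * τ) z = ρ.levelAction I σ (ρ.levelAction I τ z) := by
  induction z using Submodule.Quotient.induction_on with
  | _ v => rw [levelAction_mk, levelAction_mk, levelAction_mk, map_mul]; rfl

/-- The Galois action on `V / I V` as a `MulAction` (local use). -/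
@[reducible] def levelMulAction : MulAction GQ (ρ.V ⧸ (I • (⊤ : Submodule T ρ.V))) where
  smul σ z := ρ.levelAction I σ z
  one_smul z := levelAction_one ρ I z
  mul_smul σ τ z := levelAction_mul ρ I σ τ z

end levelAction

/-- The action on a Galois-stable subgroup as a `MulAction` (local use). -/
@[reducible] def stableSubgroupMulAction {Z : Type} [AddCommGroup Z] [MulAction GQ Z] (Z' : AddSubgroup Z)
    (hZ' : ∀ (σ : GQ), ∀ z ∈ Z', σ • z ∈ Z') : MulAction GQ Z' where
  smul σ z := ⟨σ • (z : Z), hZ' σ z z.2⟩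
  one_smul z := Subtype.ext (one_smul GQ (z : Z))
  mul_smul σ τ z := Subtype.ext (mul_smul σ τ (z : Z))

/-- **F7, the Hopf chain.** -/
theorem hopfModel_of_chain (hpow : PowerModelStatement) (hsub : SubgroupModelStatement)
    (hquot : QuotientModelStatement) (p : ℕ) [Fact p.Prime]
    (M : Type) [AddCommGroup M] [Finite M] [MulAction GQ M]
    (hM : HasHopfModel p M (fun (σ : GQ) (z : M) => σ • z))
    (A : Type) [Finite A] (X : Type) [AddCommGroup X] [MulAction GQ X]
    (Ψ : (A → M) →+ X) (hΨs : Function.Surjective Ψ)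
    (hΨe : ∀ (σ : GQ) (f : A → M), Ψ (σ • f) = σ • Ψ f)
    {T : Type} [CommRing T] [IsLocalRing T] (ρ : GaloisRepAdic T) (I : Ideal T)
    (r : ℕ) (φ : ρ.V →+ (Fin r → X))
    (hφe : ∀ (σ : GQ) (v : ρ.V), φ (ρ.ρ σ v) = σ • φ v)
    (hφk : ∀ v : ρ.V, φ v = 0 → v ∈ I • (⊤ : Submodule T ρ.V)) :
    HasHopfModel p (ρ.V ⧸ (I • (⊤ : Submodule T ρ.V)))
      (fun (σ : GQ) (z : ρ.V ⧸ (I • (⊤ : Submodule T ρ.V))) => ρ.levelAction I σ z) := by
  -- power, quotient, power
  have hAM : HasHopfModel p (A → M) (fun (σ : GQ) (f : A → M) => σ • f) := hpow p M A hM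
  have hX : HasHopfModel p X (fun (σ : GQ) (x : X) => σ • x) :=
    hquot p (A → M) X Ψ hΨs hΨe hAM
  have hXfin : Finite X := Finite.of_surjective Ψ hΨs
  have hXr : HasHopfModel p (Fin r → X) (fun (σ : GQ) (f : Fin r → X) => σ • f) :=
    hpow p X (Fin r) hX
  -- the image of `φ`
  have hstab : ∀ (σ : GQ), ∀ z ∈ φ.range, σ • z ∈ φ.range := by
    rintro σ z ⟨v, rfl⟩
    exact ⟨ρ.ρ σ v, hφe σ v⟩
  have hZ' := hsub p (Fin r → X) φ.range hstab hXr
  let instZ' : MulAction GQ φ.range := stableSubgroupMulAction φ.range hstab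
  let instQ : MulAction GQ (ρ.V ⧸ (I • (⊤ : Submodule T ρ.V))) := levelMulAction ρ I
  have hZ'' : HasHopfModel p φ.range (fun (σ : GQ) (z : φ.range) => σ • z) := hZ'
  -- the quotient map `φ(V) → V / I V`
  have hsurj : Function.Surjective φ.rangeRestrict := φ.rangeRestrict_surjective
  set mkQ : ρ.V →+ (ρ.V ⧸ (I • (⊤ : Submodule T ρ.V))) :=
    (Submodule.mkQ (I • (⊤ : Submodule T ρ.V))).toAddMonoidHom with hmkQ
  have hker : φ.rangeRestrict.ker ≤ mkQ.ker := by
    intro v hv
    rw [AddMonoidHom.mem_ker] at hv ⊢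
    have h0 : φ v = 0 := by
      have := congrArg Subtype.val hv
      simpa using this
    show Submodule.Quotient.mk v = 0
    rw [Submodule.Quotient.mk_eq_zero]
    exact hφk v h0
  set π : φ.range →+ (ρ.V ⧸ (I • (⊤ : Submodule T ρ.V))) :=
    φ.rangeRestrict.liftOfRightInverse (Function.surjInv hsurj)
      (Function.rightInverse_surjInv hsurj) ⟨mkQ, hker⟩ with hπ
  have hπφ : ∀ v : ρ.V, π (φ.rangeRestrict v) = Submodule.Quotient.mk v := fun v =>
    AddMonoidHom.liftOfRightInverse_comp_apply _ _ (Function.rightInverse_surjInv hsurj)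
      ⟨mkQ, hker⟩ v
  have hπs : Function.Surjective π := by
    intro z
    obtain ⟨v, rfl⟩ := Submodule.Quotient.mk_surjective _ z
    exact ⟨φ.rangeRestrict v, hπφ v⟩
  have hπe : ∀ (σ : GQ) (z : φ.range), π (σ • z) = σ • π z := by
    intro σ z
    obtain ⟨v, rfl⟩ := hsurj z
    have h1 : σ • φ.rangeRestrict v = φ.rangeRestrict (ρ.ρ σ v) :=
      Subtype.ext (hφe σ v).symm
    rw [h1, hπφ, hπφ]
    rfl
  have hfinZ : Finite (Fin r → X) := inferInstance
  have hfinR : Finite φ.range := inferInstance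
  exact hquot p φ.range (ρ.V ⧸ (I • (⊤ : Submodule T ρ.V))) π hπs hπe hZ''

/-- `IsFlatAt` in terms of `HasHopfModel`. -/
theorem isFlatAt_iff_hasHopfModel {T : Type} [CommRing T] [IsLocalRing T] (ρ : GaloisRepAdic T)
    (p : ℕ) :
    ρ.IsFlatAt p ↔ Finite (IsLocalRing.ResidueField T) ∧ ∀ I : Ideal T, Finite (T ⧸ I) →
      HasHopfModel p (ρ.V ⧸ (I • (⊤ : Submodule T ρ.V)))
        (fun (σ : GQ) (z : ρ.V ⧸ (I • (⊤ : Submodule T ρ.V))) => ρ.levelAction I σ z) :=
  Iff.rfl

/-- **Criterion for `IsFlatAt`**: for every ideal `I` of finite index, `V / I V` is reached by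
a Hopf chain from a Galois module with a Hopf model. -/
theorem isFlatAt_of_chain (hpow : PowerModelStatement) (hsub : SubgroupModelStatement)
    (hquot : QuotientModelStatement) (p : ℕ) [Fact p.Prime]
    {T : Type} [CommRing T] [IsLocalRing T] (ρ : GaloisRepAdic T)
    (hres : Finite (IsLocalRing.ResidueField T))
    (hchain : ∀ I : Ideal T, Finite (T ⧸ I) →
      ∃ (M : Type) (_ : AddCommGroup M) (_ : Finite M) (_ : MulAction GQ M)
        (A : Type) (_ : Finite A) (X : Type) (_ : AddCommGroup X) (_ : MulAction GQ X)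
        (Ψ : (A → M) →+ X) (r : ℕ) (φ : ρ.V →+ (Fin r → X)),
        HasHopfModel p M (fun (σ : GQ) (z : M) => σ • z) ∧ Function.Surjective Ψ ∧
        (∀ (σ : GQ) (f : A → M), Ψ (σ • f) = σ • Ψ f) ∧
        (∀ (σ : GQ) (v : ρ.V), φ (ρ.ρ σ v) = σ • φ v) ∧
        ∀ v : ρ.V, φ v = 0 → v ∈ I • (⊤ : Submodule T ρ.V)) :
    ρ.IsFlatAt p := by
  refine (isFlatAt_iff_hasHopfModel ρ p).mpr ⟨hres, fun I hI => ?_⟩
  obtain ⟨M, i1, i2, i3, A, i4, X, i5, i6, Ψ, r, φ, hM, hΨs, hΨe, hφe, hφk⟩ := hchain I hI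
  exact hopfModel_of_chain hpow hsub hquot p M hM A X Ψ hΨs hΨe ρ I r φ hφe hφk

end Fermat.Agent.H53

end
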