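/-
helper53 (P-FF / FF-F, block F7): THE HOPF CHAIN, unconditional form.

Plugs the landed closure theorems (`H57.FF.powerModel14`, `H34.subgroupModel`,
`H83.FF.quotientModel`) into `hopfModel_of_chain` / `isFlatAt_of_chain`.
-/
import Fermat.Agent.H53.FFF.HopfChain
import Fermat.Agent.H57.FF.ProdModelAdapters
import Fermat.Agent.H34.FF.SubModelFinal
import Fermat.Agent.H83.FF.QuotModel

set_option autoImplicit false

noncomputable section

namespace Fermat.Agent.H53

open Fermat.Agent.H10.FF Fermat.Agent.H14.FFF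

/-- **F7, the Hopf chain** (unconditional): a Hopf model of `M` gives a Hopf model of `V / I V`
as soon as `V / I V` is an equivariant quotient of a Galois-stable subgroup of a finite power of
an equivariant quotient `X` of a finite power of `M`. -/
theorem hopfModel_chain (p : ℕ) [Fact p.Prime]
    (M : Type) [AddCommGroup M] [Finite M] [MulAction GQ M]
    (hM : HasHopfModel p M (fun (σ : GQ) (z : M) => σ • z))
    (A : Type) [Finite A] (X : Type) [AddCommGroup X] [MulAction GQ X]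
    (Ψ : (A → M) →+ X) (hΨs : Function.Surjective Ψ)
    (hΨe : ∀ (σ : GQ) (f : A → M), Ψ (σ • f) = σ • Ψ f)
    {T : Type} [CommRing T] [IsLocalRing T] (ρ : GaloisRepAdic T) (I : Ideal T)
    (r : ℕ) (φ : ρ.V →+ (Fin r → X))
    (hφe : ∀ (σ : GQ) (v : ρ.V), φ (ρ.ρ σ v) = σ • φ v)
    (hφk : ∀ v : ρ.V, φ v = 0 → v ∈ I • (⊤ : Submodule T ρ.V)) :
    HasHopfModel p (ρ.V ⧸ (I • (⊤ : Submodule T ρ.V)))
      (fun (σ : GQ) (z : ρ.V ⧸ (I • (⊤ : Submodule T ρ.V))) => ρ.levelAction I σ z) :=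
  hopfModel_of_chain Fermat.Agent.H57.FF.powerModel14 Fermat.Agent.H34.subgroupModel
    Fermat.Agent.H83.FF.quotientModel p M hM A X Ψ hΨs hΨe ρ I r φ hφe hφk

/-- **Criterion for `IsFlatAt`** (unconditional). -/
theorem isFlatAt_chain (p : ℕ) [Fact p.Prime]
    {T : Type} [CommRing T] [IsLocalRing T] (ρ : GaloisRepAdic T)
    (hres : Finite (IsLocalRing.ResidueField T))
    (hchain : ∀ I : Ideal T, Finite (T ⧸ I) →
      ∃ (M : Type) (_ : AddCommGroup M) (_ : Finite M) (_ : MulAction GQ M)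
        (A : Type) (_ : Finite A) (X : Type) (_ : AddCommGroup X) (_ : MulAction GQ X)
        (Ψ : (A → M) →+ X) (r : ℕ) (φ : ρ.V →+ (Fin r → X)),
        HasHopfModel p M (fun (σ : GQ) (z : M) => σ • z) ∧ Function.Surjective Ψ ∧
        (∀ (σ : GQ) (f : A → M), Ψ (σ • f) = σ • Ψ f) ∧
        (∀ (σ : GQ) (v : ρ.V), φ (ρ.ρ σ v) = σ • φ v) ∧
        ∀ v : ρ.V, φ v = 0 → v ∈ I • (⊤ : Submodule T ρ.V)) :
    ρ.IsFlatAt p :=
  isFlatAt_of_chain Fermat.Agent.H57.FF.powerModel14 Fermat.Agent.H34.subgroupModel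
    Fermat.Agent.H83.FF.quotientModel p ρ hres hchain

end Fermat.Agent.H53

end
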